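import Fermat.Agent.S48.An1.Model
import Fermat.Agent.ES.An.EisMer

/-! # S48 / An1 / K4 : twisted Eisenstein series of weight 4 for a good character of a generic `Γ ≤ SL₂(ℤ)`

Port of `ES/An/{Eis,EisMer}.lean` with `Γ₀(N)` replaced by an arbitrary subgroup `Γ` containing `-1`, and the width `N`
by any `h` with `g T^h g⁻¹ ∈ Γ` for all `g`.  The analytic part (`Eis.Gc`) is imported from `ES/An/Eis/Gc.lean`. -/

set_option autoImplicit false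

open AlgebraicCurve ModularCurve UpperHalfPlane
open scoped MatrixGroups IntermediateField Manifold ModularForm

namespace Fermat.Agent.S48.An1

open Fermat.Agent.S24 Fermat.Agent.ES.An Fermat.Agent.ES.An.Eis

noncomputable section

namespace K4

open Matrix

variable {Γ : Subgroup SL(2, ℤ)}

lemma psi_eq_of_botRow_eq {ψ : Γ →* ℂˣ} (hψ : IsGood ψ) (γ δ : Γ)
    (h : botRow (γ : SL(2, ℤ)) = botRow (δ : SL(2, ℤ))) : ψ γ = ψ δ := by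
  have h1 : botRow ((γ * δ⁻¹ : Γ) : SL(2, ℤ)) = ![0, 1] := by
    have e : ((γ * δ⁻¹ : Γ) : SL(2, ℤ)) = (γ : SL(2, ℤ)) * (δ : SL(2, ℤ))⁻¹ := rfl
    rw [e, botRow_mul, h, ← botRow_mul, mul_inv_cancel, botRow_one]
  set M : SL(2, ℤ) := ((γ * δ⁻¹ : Γ) : SL(2, ℤ)) with hM
  have h10 : M 1 0 = 0 := by simpa [botRow] using congrFun h1 0
  have h11 : M 1 1 = 1 := by simpa [botRow] using congrFun h1 1
  have hdet := M.det_coe
  rw [Matrix.det_fin_two, h10, h11] at hdet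
  have h00 : M 0 0 = 1 := by linarith
  have htr : |(M : Matrix (Fin 2) (Fin 2) ℤ).trace| ≤ 2 := by
    rw [Matrix.trace_fin_two, h00, h11]; norm_num
  have h2 := hψ.2 (γ * δ⁻¹) htr
  rw [map_mul, map_inv, mul_inv_eq_one] at h2
  exact h2

open Classical in
/-- the coefficient function attached to `ψ`. -/
def cpsi (ψ : Γ →* ℂˣ) (v : Fin 2 → ℤ) : ℂ :=
  if h : ∃ γ : Γ, botRow (γ : SL(2, ℤ)) = v then (((ψ h.choose)⁻¹ : ℂˣ) : ℂ) else 0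

lemma cpsi_botRow {ψ : Γ →* ℂˣ} (hψ : IsGood ψ) (γ : Γ) :
    cpsi ψ (botRow (γ : SL(2, ℤ))) = (((ψ γ)⁻¹ : ℂˣ) : ℂ) := by
  have h : ∃ δ : Γ, botRow (δ : SL(2, ℤ)) = botRow (γ : SL(2, ℤ)) := ⟨γ, rfl⟩
  rw [cpsi, dif_pos h, psi_eq_of_botRow_eq hψ _ _ h.choose_spec]

lemma cpsi_of_not {ψ : Γ →* ℂˣ} {v : Fin 2 → ℤ}
    (h : ¬ ∃ γ : Γ, botRow (γ : SL(2, ℤ)) = v) : cpsi ψ v = 0 := by
  rw [cpsi, dif_neg h]

lemma norm_cpsi_le {ψ : Γ →* ℂˣ} (hψ : IsGood ψ) (v : Fin 2 → ℤ) : ‖cpsi ψ v‖ ≤ 1 := by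
  by_cases h : ∃ γ : Γ, botRow (γ : SL(2, ℤ)) = v
  · obtain ⟨γ, rfl⟩ := h
    rw [cpsi_botRow hψ, Units.val_inv_eq_inv_val, norm_inv, hψ.1 γ, inv_one]
  · rw [cpsi_of_not h, norm_zero]; exact zero_le_one

lemma cpsi_vecMul_inv {ψ : Γ →* ℂˣ} (hψ : IsGood ψ) (γ : Γ) (v : Fin 2 → ℤ) :
    cpsi ψ (v ᵥ* ↑((γ : SL(2, ℤ))⁻¹)) = ((ψ γ : ℂˣ) : ℂ) * cpsi ψ v := by
  by_cases h : ∃ δ : Γ, botRow (δ : SL(2, ℤ)) = v
  · obtain ⟨δ, rfl⟩ := h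
    have e : botRow (δ : SL(2, ℤ)) ᵥ* ↑((γ : SL(2, ℤ))⁻¹) =
        botRow ((δ * γ⁻¹ : Γ) : SL(2, ℤ)) := by
      rw [← botRow_mul]; rfl
    rw [e, cpsi_botRow hψ, cpsi_botRow hψ, map_mul, map_inv, mul_inv, inv_inv, mul_comm,
      Units.val_mul]
  · have h' : ¬ ∃ δ : Γ, botRow (δ : SL(2, ℤ)) = v ᵥ* ↑((γ : SL(2, ℤ))⁻¹) := by
      rintro ⟨δ, hδ⟩
      apply h
      refine ⟨δ * γ, ?_⟩
      have e : ((δ * γ : Γ) : SL(2, ℤ)) = (δ : SL(2, ℤ)) * (γ : SL(2, ℤ)) := rfl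
      rw [e, botRow_mul, hδ, vecMul_inv_mul]
    rw [cpsi_of_not h, cpsi_of_not h', mul_zero]

lemma limit_eq_two (hneg : (-1 : SL(2, ℤ)) ∈ Γ) {ψ : Γ →* ℂˣ} (hψ : IsGood ψ) :
    (∑' v : Fin 2 → ℤ, if v 0 = 0 then cpsi ψ v * ((v 1 : ℤ) : ℂ) ^ (-(4 : ℤ)) else 0) = 2 := by
  have hne : (![0, 1] : Fin 2 → ℤ) ≠ ![0, -1] := by
    intro h
    have := congrFun h 1
    simp at this
  rw [tsum_eq_sum (s := {![0, 1], ![0, -1]})]
  · rw [Finset.sum_pair hne]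
    have h1 : cpsi ψ ![0, 1] = 1 := by
      have := cpsi_botRow hψ (1 : Γ)
      rw [map_one, inv_one, Units.val_one] at this
      rw [← this]
      congr 1
      exact botRow_one.symm
    have h2 : cpsi ψ ![0, -1] = 1 := by
      have := cpsi_botRow hψ (⟨-1, hneg⟩ : Γ)
      have htr : |(((⟨-1, hneg⟩ : Γ) : SL(2, ℤ)) : Matrix (Fin 2) (Fin 2) ℤ).trace| ≤ 2 := by
        rw [Matrix.trace_fin_two]
        simp
      rw [hψ.2 _ htr, inv_one, Units.val_one] at this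
      rw [← this]
      congr 1
      ext i
      fin_cases i <;> simp [botRow]
    simp only [Matrix.cons_val_zero, if_true, Matrix.cons_val_one, h1, h2]
    norm_num
  · intro v hv
    by_cases h0 : v 0 = 0
    · rw [if_pos h0]
      by_cases h : ∃ γ : Γ, botRow (γ : SL(2, ℤ)) = v
      · exfalso
        obtain ⟨γ, rfl⟩ := h
        set M : SL(2, ℤ) := (γ : SL(2, ℤ)) with hM
        have h10 : M 1 0 = 0 := h0
        have hdet := M.det_coe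
        rw [Matrix.det_fin_two, h10, mul_zero, sub_zero] at hdet
        have hu : M 1 1 = 1 ∨ M 1 1 = -1 :=
          Int.isUnit_iff.1 (IsUnit.of_mul_eq_one _ (by rw [mul_comm]; exact hdet))
        apply hv
        simp only [Finset.mem_insert, Finset.mem_singleton]
        rcases hu with hu | hu
        · left
          ext i
          fin_cases i
          · exact h10
          · exact hu
        · right
          ext i
          fin_cases i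
          · exact h10
          · exact hu
      · rw [cpsi_of_not h, zero_mul]
    · rw [if_neg h0]

theorem isGood_one (Γ : Subgroup SL(2, ℤ)) : IsGood (1 : Γ →* ℂˣ) :=
  ⟨fun _ => by simp, fun _ _ => rfl⟩

/-- **(K4), analytic form.** the twisted Eisenstein series of weight `4`. -/
theorem exists_twisted_eisenstein (hneg : (-1 : SL(2, ℤ)) ∈ Γ) (ψ : Γ →* ℂˣ) (hψ : IsGood ψ) :
    ∃ E : Hol, E ≠ 0 ∧
      (∀ γ : Γ, ((E : ℍ → ℂ) ∣[(4 : ℤ)] (γ : SL(2, ℤ))) = ((ψ γ : ℂˣ) : ℂ) • (E : ℍ → ℂ)) ∧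
      (∀ g : SL(2, ℤ), IsBoundedAtImInfty ((E : ℍ → ℂ) ∣[(4 : ℤ)] g)) := by
  have hc := norm_cpsi_le hψ
  refine ⟨⟨Gc (cpsi ψ), Gc_mdiff hc⟩, ?_, fun γ => ?_, fun g => ?_⟩
  · intro h0
    have h1 : Gc (cpsi ψ) = 0 := congrArg Subtype.val h0
    have h2 := Gc_tendsto hc
    rw [limit_eq_two hneg hψ, h1] at h2
    have h3 : (0 : ℂ) = 2 := tendsto_nhds_unique (tendsto_const_nhds) h2
    norm_num at h3
  · show Gc (cpsi ψ) ∣[(4 : ℤ)] (γ : SL(2, ℤ)) = ((ψ γ : ℂˣ) : ℂ) • Gc (cpsi ψ)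
    rw [Gc_slash]
    ext z
    simp only [Gc, Pi.smul_apply, smul_eq_mul, cpsi_vecMul_inv hψ, mul_assoc, tsum_mul_left]
  · show IsBoundedAtImInfty (Gc (cpsi ψ) ∣[(4 : ℤ)] g)
    rw [Gc_slash]
    exact Gc_isBoundedAtImInfty fun v => hc _

/-- all `SL₂(ℤ)`-translates of a twisted form are in `HolCusp h`. -/
theorem slash_mem_HolCusp (h : ℕ) [NeZero h]
    (hw : ∀ g : SL(2, ℤ), g * ModularGroup.T ^ (h : ℤ) * g⁻¹ ∈ Γ)
    (ψ : Γ →* ℂˣ) (hψ : IsGood ψ) (k : ℤ) (E : Hol)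
    (hsl : ∀ γ : Γ, ((E : ℍ → ℂ) ∣[k] (γ : SL(2, ℤ))) = ((ψ γ : ℂˣ) : ℂ) • (E : ℍ → ℂ))
    (hb : ∀ g : SL(2, ℤ), IsBoundedAtImInfty ((E : ℍ → ℂ) ∣[k] g)) (g : SL(2, ℤ)) :
    ((E : ℍ → ℂ) ∣[k] g) ∈ HolCusp h := by
  refine ⟨mdiff_slash E.2 k g, periodic_of_vadd _ _ fun τ => ?_, 0, ?_⟩
  · set γ' : Γ := ⟨_, hw g⟩ with hγ'
    have h1 : ψ γ' = 1 := hψ.2 γ' (by
      rw [hγ']
      show |((g * ModularGroup.T ^ (h : ℤ) * g⁻¹ : SL(2, ℤ)) : Matrix (Fin 2) (Fin 2) ℤ).trace| ≤ 2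
      rw [trace_conj_T_pow]
      norm_num)
    have h2 : ((E : ℍ → ℂ) ∣[k] g) ∣[k] (ModularGroup.T ^ (h : ℤ)) = (E : ℍ → ℂ) ∣[k] g := by
      rw [← SlashAction.slash_mul]
      have h3 : g * ModularGroup.T ^ (h : ℤ) = (γ' : SL(2, ℤ)) * g := by
        rw [hγ']
        group
      rw [h3, SlashAction.slash_mul, hsl γ', h1]
      simp
    have h4 := congrFun h2 τ
    rw [ModularForm.SL_slash_apply, modular_T_zpow_smul] at h4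
    have h5 : denom (ModularGroup.T ^ (h : ℤ) : SL(2, ℤ)) τ = 1 := by
      have e10 : (ModularGroup.T ^ (h : ℤ) : SL(2, ℤ)) 1 0 = 0 := by
        show (ModularGroup.T ^ (h : ℤ) : SL(2, ℤ)).1 1 0 = 0
        rw [ModularGroup.coe_T_zpow]; rfl
      have e11 : (ModularGroup.T ^ (h : ℤ) : SL(2, ℤ)) 1 1 = 1 := by
        show (ModularGroup.T ^ (h : ℤ) : SL(2, ℤ)).1 1 1 = 1
        rw [ModularGroup.coe_T_zpow]; rfl
      rw [ModularGroup.denom_apply, e10, e11]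
      simp
    rw [h5, _root_.one_zpow, mul_one] at h4
    simpa using h4
  · simpa using hb g

/-- **(K4).** a nonzero meromorphic function with prescribed good character `ψ` of exponent `m`, meromorphic at all cusps,
whose `m`-th power is a quotient of two modular forms (`Γ`-invariant, bounded at all cusps) of weight `4 m`. -/
theorem exists_char_fun (hneg : (-1 : SL(2, ℤ)) ∈ Γ) (h : ℕ) [NeZero h]
    (hw : ∀ g : SL(2, ℤ), g * ModularGroup.T ^ (h : ℤ) * g⁻¹ ∈ Γ)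
    (ψ : Γ →* ℂˣ) (hψ : IsGood ψ) (m : ℕ) (hψm : ψ ^ m = 1) :
    ∃ (w : Mer) (A B : Hol), w ≠ 0 ∧ IsChar w ψ ∧
      (∀ g : SL(2, ℤ), cmp (slp g) w ∈ MerCusp h) ∧ B ≠ 0 ∧
      w ^ m = algebraMap Hol Mer A / algebraMap Hol Mer B ∧
      (∀ γ : Γ, ((A : ℍ → ℂ) ∣[4 * (m : ℤ)] (γ : SL(2, ℤ))) = (A : ℍ → ℂ)) ∧
      (∀ g : SL(2, ℤ), IsBoundedAtImInfty ((A : ℍ → ℂ) ∣[4 * (m : ℤ)] g)) ∧
      (∀ γ : Γ, ((B : ℍ → ℂ) ∣[4 * (m : ℤ)] (γ : SL(2, ℤ))) = (B : ℍ → ℂ)) ∧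
      (∀ g : SL(2, ℤ), IsBoundedAtImInfty ((B : ℍ → ℂ) ∣[4 * (m : ℤ)] g)) := by
  obtain ⟨E, hE0, hEsl, hEb⟩ := exists_twisted_eisenstein hneg ψ hψ
  obtain ⟨E1, hE10, hE1sl, hE1b⟩ := exists_twisted_eisenstein hneg 1 (isGood_one Γ)
  have hinj := IsFractionRing.injective Hol Mer
  have hEM : algebraMap Hol Mer E ≠ 0 := by
    rw [Ne, map_eq_zero_iff _ hinj]; exact hE0
  have hE1M : algebraMap Hol Mer E1 ≠ 0 := by
    rw [Ne, map_eq_zero_iff _ hinj]; exact hE10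
  -- modularity of the `m`-th powers
  have hpow : ∀ (χ : Γ →* ℂˣ) (G : Hol), χ ^ m = 1 →
      (∀ γ : Γ, ((G : ℍ → ℂ) ∣[(4 : ℤ)] (γ : SL(2, ℤ))) = ((χ γ : ℂˣ) : ℂ) • (G : ℍ → ℂ)) →
      (∀ g : SL(2, ℤ), IsBoundedAtImInfty ((G : ℍ → ℂ) ∣[(4 : ℤ)] g)) →
      (∀ γ : Γ, (((G ^ m : Hol) : ℍ → ℂ) ∣[4 * (m : ℤ)] (γ : SL(2, ℤ))) = ((G ^ m : Hol) : ℍ → ℂ)) ∧
      (∀ g : SL(2, ℤ), IsBoundedAtImInfty (((G ^ m : Hol) : ℍ → ℂ) ∣[4 * (m : ℤ)] g)) := by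
    intro χ G hχ hsl hb
    refine ⟨fun γ => ?_, fun g => ?_⟩
    · show ((G : ℍ → ℂ) ^ m) ∣[4 * (m : ℤ)] (γ : SL(2, ℤ)) = (G : ℍ → ℂ) ^ m
      rw [slash_pow, hsl γ, smul_pow]
      have h1 : (((χ γ : ℂˣ) : ℂ)) ^ m = 1 := by
        have := congrArg (fun c : ℂˣ => (c : ℂ)) (DFunLike.congr_fun hχ γ)
        simpa using this
      rw [h1, one_smul]
    · show IsBoundedAtImInfty (((G : ℍ → ℂ) ^ m) ∣[4 * (m : ℤ)] g)
      rw [slash_pow]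
      exact bdd_pow (hb g) m
  obtain ⟨hA1, hA2⟩ := hpow ψ E hψm hEsl hEb
  obtain ⟨hB1, hB2⟩ := hpow 1 E1 (by ext γ; simp) hE1sl hE1b
  refine ⟨algebraMap Hol Mer E / algebraMap Hol Mer E1, E ^ m, E1 ^ m, div_ne_zero hEM hE1M,
    fun γ => ?_, fun g => ?_, pow_ne_zero m hE10, by rw [div_pow, map_pow, map_pow],
    hA1, hA2, hB1, hB2⟩
  · rw [cmp_div_eq 4 (γ : SL(2, ℤ)) E E1 hE10]
    have h1 : slHol 4 (γ : SL(2, ℤ)) E = ((ψ γ : ℂˣ) : ℂ) • E := Subtype.ext (hEsl γ)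
    have h2 : slHol 4 (γ : SL(2, ℤ)) E1 = E1 := Subtype.ext (by
      rw [coe_slHol, hE1sl γ]
      simp)
    rw [h1, h2, Algebra.smul_def, map_mul, Algebra.smul_def, mul_div_assoc,
      ← IsScalarTower.algebraMap_apply]
  · rw [cmp_div_eq 4 g E E1 hE10, mem_MerCusp_iff]
    refine ⟨⟨_, slash_mem_HolCusp h hw ψ hψ 4 E hEsl hEb g⟩,
      ⟨_, slash_mem_HolCusp h hw 1 (isGood_one Γ) 4 E1 hE1sl hE1b g⟩, ?_, rfl⟩
    intro h
    have h' : ((E1 : ℍ → ℂ) ∣[(4 : ℤ)] g) = 0 := congrArg Subtype.val h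
    exact slHol_ne_zero 4 g hE10 (Subtype.ext h')

/-- the width hypothesis for `± Γ₁(M)`. -/
theorem conj_T_pow_mem_Gpm (M : ℕ) (g : SL(2, ℤ)) :
    g * ModularGroup.T ^ (M : ℤ) * g⁻¹ ∈ Gpm M := by
  refine Gamma1_le_Gpm M ?_
  rw [CongruenceSubgroup.Gamma1_mem]
  have h := coe_conj_T_pow (M : ℤ) g
  refine ⟨?_, ?_, ?_⟩
  · rw [congrFun (congrFun h 0) 0]; simp
  · rw [congrFun (congrFun h 1) 1]; simp
  · rw [congrFun (congrFun h 1) 0]; simp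

end K4

end

end Fermat.Agent.S48.An1
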