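import Fermat.Agent.S48.An1.K4.Eis
import Fermat.Agent.S48.An1.Desc.Inst
import Fermat.Agent.S48.An1.Dict

/-!
# S48 / An1 / K4 / Qb : (K4) over `ℚ̄` for `± Γ₁(M)`

Port of `ES/An/Main.exists_of_isGood`: for a good character `ψ` of `Gpm M` with `ψ ^ m = 1` there is `f ∈ F1(M)ˣ`, `m ∣ div f`, whose
`m`-th roots on `ℍ` have character `ψ`.   (`K4.exists_char_fun`, `Gens.mem_range_of_isMFr`, `Model.divBy_of_char`, `Desc.descent1`.)
-/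

set_option autoImplicit false

open AlgebraicCurve ModularCurve UpperHalfPlane
open scoped MatrixGroups IntermediateField Manifold ModularForm

namespace Fermat.Agent.S48.An1.K4

open Fermat.Agent.S24 Fermat.Agent.ES.An
open Fermat.Agent.ES (Qb)

noncomputable section

variable (M : ℕ) [NeZero M]

/-- over `ℂ`. -/
theorem exists_char_FC1 (hM : 5 ≤ M) (ψ : Gpm M →* ℂˣ) (hψ : An1.IsGood ψ) (m : ℕ)
    (hψm : ψ ^ m = 1) :
    ∃ (w : Mer) (f : X1.FC1 M), w ≠ 0 ∧ An1.IsChar w ψ ∧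
      (∀ g : SL(2, ℤ), cmp (slp g) w ∈ MerCusp M) ∧ w ^ m = (X1.modelC1 M hM).φ f := by
  obtain ⟨w, A, B, hw0, hc, hcusp, hB, hw, hA1, hA2, hB1, hB2⟩ :=
    exists_char_fun (neg_one_mem_Gpm M) M (conj_T_pow_mem_Gpm M) ψ hψ m hψm
  have hmfr : X1.IsMFr (Gpm M) (w ^ m) :=
    ⟨4 * (m : ℤ), A, B, X1.isMF_of _ _ A.2 hA1 hA2, X1.isMF_of _ _ B.2 hB1 hB2, hB, hw⟩
  obtain ⟨f, hf⟩ := (X1.gens1 M hM).mem_range_of_isMFr (X1.T_mem_Gpm M) _ hmfr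
  exact ⟨w, f, hw0, hc, hcusp, hf.symm⟩

/-- **(K4) over `ℚ̄`**, for characters of `Gpm M`. -/
theorem exists_of_isGood_Gpm (hM : 5 ≤ M) (ψ : Gpm M →* ℂˣ) (hψ : An1.IsGood ψ) (m : ℕ)
    (hm : 0 < m) (hψm : ψ ^ m = 1) :
    ∃ (f : (X1.F1Q M).F) (w : Mer), f ≠ 0 ∧ DivBy Qb m f ∧ w ≠ 0 ∧
      w ^ m = (X1.modelB1 M hM).φ f ∧ An1.IsChar w ψ ∧
      ∀ g : SL(2, ℤ), cmp (slp g) w ∈ MerCusp M := by
  obtain ⟨w, f, hw0, hc, hcusp, hw⟩ := exists_char_FC1 M hM ψ hψ m hψm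
  have hf0 : f ≠ 0 := by
    rintro rfl
    rw [map_zero] at hw
    exact hw0 (pow_eq_zero_iff hm.ne' |>.mp hw)
  have hfD : DivBy ℂ m f := (X1.modelC1 M hM).divBy_of_char m f hf0 w hw ψ hψ hc hcusp
  obtain ⟨f', h, hh0, hf'⟩ := Desc.descent1 M hM m hm f hf0 hfD
  have hf'0 : f' ≠ 0 := by
    rintro rfl
    have h0 : (X1.gens1 M hM).bc (0 : (X1.gens1 M hM).FB) = 0 := map_zero _
    exact mul_ne_zero hf0 (pow_ne_zero _ hh0) (hf'.symm.trans h0)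
  set w' : Mer := w * (X1.modelC1 M hM).φ h with hw'
  have hth0 : (X1.modelC1 M hM).φ h ≠ 0 := by rwa [Ne, map_eq_zero]
  have hw'0 : w' ≠ 0 := mul_ne_zero hw0 hth0
  have hw'm : w' ^ m = (X1.modelB1 M hM).φ f' := by
    have e : (X1.modelB1 M hM).φ f' = (X1.modelC1 M hM).φ ((X1.gens1 M hM).bc f') := rfl
    rw [e, hf', map_mul, map_pow, hw', mul_pow, hw]
  have hc' : An1.IsChar w' ψ := by
    have h1 : An1.IsChar ((X1.modelC1 M hM).φ h) (1 : Gpm M →* ℂˣ) :=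
      An1.isChar_one_iff.mpr fun γ => (X1.modelC1 M hM).inv γ h
    have h2 := hc.mul h1
    have h3 : ψ * (1 : Gpm M →* ℂˣ) = ψ := mul_one ψ
    rw [h3] at h2
    exact h2
  have hcusp' : ∀ g : SL(2, ℤ), cmp (slp g) w' ∈ MerCusp M := by
    intro g
    rw [hw', map_mul]
    exact mul_mem (hcusp g) ((X1.modelC1 M hM).cusp g h)
  exact ⟨f', w', hf'0, (X1.modelB1 M hM).divBy_of_char m f' hf'0 w' hw'm ψ hψ hc' hcusp',
    hw'0, hw'm, hc', hcusp'⟩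

end

end Fermat.Agent.S48.An1.K4
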